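/-
S26 / Rig / Defs : the definitions of block RIG (`IsFam`, `Geo.IsClosedA`, `Curve.Pt`, `Curve.pt01`).
Definitions only; the theorems of the interface are proved in `Rig/Fam3-5.lean`, `Rig/Top.lean`,
`Rig/PK/*` and aggregated by `Rig/Interface.lean`.
-/
import Fermat.Agent.S26.Curve.Pic
import Fermat.Agent.S26.Curve.Fam

set_option autoImplicit false

open scoped TensorProduct

universe u

namespace Fermat.Agent.S26

variable {K : Type u} [Field K] [IsAlgClosed K]

/-- `c` is the family of classes of an algebraic family of line bundles on `C` -/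
def IsFam {C : Curve K} (Par : PtF K) (c : Par.pt K → Pic C K) : Prop :=
  ∃ 𝓝 : CFam C Par, ∀ τ : Par.pt K, c τ = (𝓝.N τ).cls

/-- Zariski closed subsets of `𝔸(K)` -/
def Geo.IsClosedA {𝔸 : AVF K} {g : ℕ} (G : Geo 𝔸 g) (T : Set (𝔸.pt K)) : Prop :=
  ∀ a : 𝔸.pt K, ∃ J : Ideal G.R₀, ∀ w : G.R₀ →ₐ[K] K,
    𝔸.map w G.ι₀ + a ∈ T ↔ J ≤ RingHom.ker w

/-- the `K`-points of the two charts of `C` (points of the overlap appear twice) -/
def Curve.Pt (C : Curve K) : Type u := (C.B0 →ₐ[K] K) ⊕ (C.B1 →ₐ[K] K)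

/-- a point of the overlap -/
def Curve.pt01 (C : Curve K) (q : C.B01 →ₐ[K] K) : C.Pt := Sum.inl (q.comp C.j0)

end Fermat.Agent.S26
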