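/-
S26 / Rig / Fam3 : operations on algebraic families of line bundles (package RIG-FAM-3):
`IsFam.add`, `IsFam.neg`, `IsFam.comap`, `IsFam.pull` (same statements as in `Rig/Interface.lean`).
-/
import Fermat.Agent.S26.Rig.Defs
import Fermat.Agent.S26.AV.TI

set_option autoImplicit false
set_option linter.unusedSectionVars false

open scoped TensorProduct

universe u

namespace Fermat.Agent.S26

variable {K : Type u} [Field K] [IsAlgClosed K]

section Fam3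

variable {C : Curve K} {Par Par' : PtF K}

omit [IsAlgClosed K] in
/-- tensor product of two families -/
noncomputable def CFam.Fam3_tensor (𝓝 𝓝' : CFam C Par) : CFam C Par where
  N := fun τ => (𝓝.N τ).tensor (𝓝'.N τ)
  bc := fun φ _ _ h => (𝓝.bc φ h).tensor (𝓝'.bc φ h)
  isPullback := fun φ _ _ h => (𝓝.isPullback φ h).tensor (𝓝'.isPullback φ h)

omit [IsAlgClosed K] in
/-- dual of a family -/
noncomputable def CFam.Fam3_dual (𝓝 : CFam C Par) : CFam C Par where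
  N := fun τ => (𝓝.N τ).dual
  bc := fun φ _ _ h => (𝓝.bc φ h).dual (𝓝.isPullback φ h)
  isPullback := fun φ _ _ h => (𝓝.isPullback φ h).dual

omit [IsAlgClosed K] in
/-- pull back of a family along a morphism of parameter spaces -/
def CFam.Fam3_comap (𝓝 : CFam C Par) (F : PtHom Par' Par) : CFam C Par' where
  N := fun τ => 𝓝.N (F.app τ)
  bc := fun φ τ τ' h => 𝓝.bc φ (show Par.map φ (F.app τ) = F.app τ' by rw [F.nat, h])
  isPullback := fun φ _ _ _ => 𝓝.isPullback φ _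

omit [IsAlgClosed K] in
theorem Fam3_map_base_add_cst {𝔸 : AVF K} (h : CPt C 𝔸.toPtF K) {R R' : Type u} [CommRing R]
    [Algebra K R] [CommRing R'] [Algebra K R'] (φ : R →ₐ[K] R') {a : 𝔸.pt R} {a' : 𝔸.pt R'}
    (e : 𝔸.map φ a = a') :
    (h.base R + CPt.cst C (X := 𝔸.toPtF) a).map φ = h.base R' + CPt.cst C (X := 𝔸.toPtF) a' := by
  rw [CPt.map_add, CPt.ti_base_map, CPt.ti_cst_map, e]

omit [IsAlgClosed K] in
/-- the family `a ↦ (h + a)^* 𝓜` -/
noncomputable def Fam3_pullFam {𝔸 : AVF K} (𝓜 : LBun 𝔸.toPtF) (h : CPt C 𝔸.toPtF K) :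
    CFam C 𝔸.toPtF where
  N := fun {R} _ _ a => 𝓜.pull (h.base R + CPt.cst C a)
  bc := fun φ _ _ e => 𝓜.pullHom φ _ (Fam3_map_base_add_cst h φ e)
  isPullback := fun φ _ _ e => 𝓜.pullHom_isPullback φ _ (Fam3_map_base_add_cst h φ e)

theorem IsFam.add {c c' : Par.pt K → Pic C K} (h : IsFam Par c) (h' : IsFam Par c') :
    IsFam Par (fun τ => c τ + c' τ) := by
  obtain ⟨𝓝, h𝓝⟩ := h
  obtain ⟨𝓝', h𝓝'⟩ := h'
  exact ⟨𝓝.Fam3_tensor 𝓝', fun τ => by
    show c τ + c' τ = _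
    rw [h𝓝, h𝓝']
    rfl⟩

theorem IsFam.neg {c : Par.pt K → Pic C K} (h : IsFam Par c) : IsFam Par (fun τ => - c τ) := by
  obtain ⟨𝓝, h𝓝⟩ := h
  exact ⟨𝓝.Fam3_dual, fun τ => by
    show - c τ = _
    rw [h𝓝]
    rfl⟩

theorem IsFam.comap {c : Par.pt K → Pic C K} (h : IsFam Par c) (F : PtHom Par' Par) :
    IsFam Par' (fun τ => c (F.app τ)) := by
  obtain ⟨𝓝, h𝓝⟩ := h
  exact ⟨𝓝.Fam3_comap F, fun τ => h𝓝 _⟩

theorem IsFam.pull {𝔸 : AVF K} (𝓜 : LBun 𝔸.toPtF) (h : CPt C 𝔸.toPtF K) :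
    IsFam 𝔸.toPtF (fun y => (𝓜.pull (h + CPt.cst C y)).cls) :=
  ⟨Fam3_pullFam 𝓜 h, fun y => by
    show (𝓜.pull (h + CPt.cst C y)).cls = (𝓜.pull (h.base K + CPt.cst C y)).cls
    rw [CPt.ti_base_self]⟩

end Fam3

end Fermat.Agent.S26
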