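/-
S26 / Rig / Fam4 (RIG-FAM-4) : the constant family `IsFam.const`.
Black boxes used: `CMod.bc`, `CMod.bcHom`, `CMod.bcHom_isPullback`, `CMod.Hom.comp`,
`CMod.Hom.IsPullback.comp` (Curve/Fam.lean), `CMod.Hom.IsPullback.unique` (Curve/HomOps.lean).
-/
import Fermat.Agent.S26.Rig.Defs

set_option autoImplicit false

open scoped TensorProduct

universe u

namespace Fermat.Agent.S26

/-- post-composition of a spanning semilinear map with a linear equivalence is spanning -/
theorem Fam4_span_comp {S S' : Type*} [CommRing S] [CommRing S'] {σ : S →+* S'}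
    {M M' M'' : Type*} [AddCommGroup M] [Module S M] [AddCommGroup M'] [Module S' M']
    [AddCommGroup M''] [Module S' M''] (g : M →ₛₗ[σ] M') (e : M' ≃ₗ[S'] M'')
    (hg : Submodule.span S' (Set.range g) = ⊤) :
    Submodule.span S' (Set.range ((e : M' →ₗ[S'] M'').comp g)) = ⊤ := by
  have h : Set.range ((e : M' →ₗ[S'] M'').comp g) = (e : M' →ₗ[S'] M'') '' Set.range g := by
    rw [LinearMap.coe_comp, Set.range_comp]
  rw [h, ← Submodule.map_span, hg, Submodule.map_top, LinearEquiv.range]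

variable {K : Type u} [Field K]

namespace CMod

variable {C : Curve K} {R R' : Type u} [CommRing R] [Algebra K R] [CommRing R'] [Algebra K R']

/-- `Hom.IsPullback.unique` for two propositionally equal ring maps -/
theorem Fam4_unique {φ φ' : R →ₐ[K] R'} (hφ : φ = φ') {N : CMod C R} {N' N'' : CMod C R'}
    {f : Hom φ N N'} {f' : Hom φ' N N''} (h : f.IsPullback) (h' : f'.IsPullback) :
    Nonempty (Iso N' N'') := by
  subst hφ
  exact h.unique h'

/-- post-composition of a morphism over `φ` with an isomorphism -/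
noncomputable def Hom.Fam4_isoComp {φ : R →ₐ[K] R'} {N : CMod C R} {N' N'' : CMod C R'}
    (e : Iso N' N'') (f : Hom φ N N') : Hom φ N N'' where
  f0 := (e.e0 : N'.N0 →ₗ[C.S0 R'] N''.N0).comp f.f0
  f1 := (e.e1 : N'.N1 →ₗ[C.S1 R'] N''.N1).comp f.f1
  f01 := (e.e01 : N'.N01 →ₗ[C.S01 R'] N''.N01).comp f.f01
  comm0 := fun n => by
    show e.e01 (f.f01 (N.r0 n)) = N''.r0 (e.e0 (f.f0 n))
    rw [f.comm0, e.comm0]
  comm1 := fun n => by
    show e.e01 (f.f01 (N.r1 n)) = N''.r1 (e.e1 (f.f1 n))
    rw [f.comm1, e.comm1]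

theorem Hom.IsPullback.Fam4_isoComp {φ : R →ₐ[K] R'} {N : CMod C R} {N' N'' : CMod C R'}
    (e : Iso N' N'') {f : Hom φ N N'} (h : f.IsPullback) : (f.Fam4_isoComp e).IsPullback where
  span0 := Fam4_span_comp f.f0 e.e0 h.span0
  span1 := Fam4_span_comp f.f1 e.e1 h.span1
  span01 := Fam4_span_comp f.f01 e.e01 h.span01

/-- the identity, as a morphism over a ring map which is equal to the identity -/
def Fam4_idHom {φ : R →ₐ[K] R} (hφ : φ = AlgHom.id K R) (N : CMod C R) : Hom φ N N where
  f0 :=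
    { toFun := id
      map_add' := fun _ _ => rfl
      map_smul' := fun s n => by
        show s • n = (C.m0 φ) s • n
        rw [hφ, Curve.m0, Algebra.TensorProduct.map_id, AlgHom.id_apply] }
  f1 :=
    { toFun := id
      map_add' := fun _ _ => rfl
      map_smul' := fun s n => by
        show s • n = (C.m1 φ) s • n
        rw [hφ, Curve.m1, Algebra.TensorProduct.map_id, AlgHom.id_apply] }
  f01 :=
    { toFun := id
      map_add' := fun _ _ => rfl
      map_smul' := fun s n => by
        show s • n = (C.m01 φ) s • n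
        rw [hφ, Curve.m01, Algebra.TensorProduct.map_id, AlgHom.id_apply] }
  comm0 := fun _ => rfl
  comm1 := fun _ => rfl

theorem Fam4_idHom_isPullback {φ : R →ₐ[K] R} (hφ : φ = AlgHom.id K R) (N : CMod C R) :
    (Fam4_idHom hφ N).IsPullback where
  span0 := eq_top_iff.2 fun n _ => Submodule.subset_span ⟨n, rfl⟩
  span1 := eq_top_iff.2 fun n _ => Submodule.subset_span ⟨n, rfl⟩
  span01 := eq_top_iff.2 fun n _ => Submodule.subset_span ⟨n, rfl⟩

/-- the base change along (a map equal to) the identity -/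
theorem Fam4_iso_bc_id {φ : R →ₐ[K] R} (hφ : φ = AlgHom.id K R) (N : CMod C R) :
    Nonempty (Iso N (N.bc φ)) :=
  (Fam4_idHom_isPullback hφ N).unique (bcHom_isPullback φ N)

/-- transitivity of the base change -/
theorem Fam4_iso_bc_bc (N₀ : CMod C K) (φ : R →ₐ[K] R') :
    Nonempty (Iso ((N₀.bc (Algebra.ofId K R)).bc φ) (N₀.bc (Algebra.ofId K R'))) :=
  Fam4_unique (Subsingleton.elim _ _)
    ((bcHom_isPullback φ (N₀.bc (Algebra.ofId K R))).comp (bcHom_isPullback (Algebra.ofId K R) N₀))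
    (bcHom_isPullback (Algebra.ofId K R') N₀)

/-- the constant family -/
noncomputable def Fam4_const (N₀ : CMod C K) (Par : PtF K) : CFam C Par where
  N := fun {R} _ _ _ => N₀.bc (Algebra.ofId K R)
  bc := fun {R _} _ _ _ _ φ {_ _} _ =>
    (bcHom φ (N₀.bc (Algebra.ofId K R))).Fam4_isoComp (Classical.choice (Fam4_iso_bc_bc N₀ φ))
  isPullback := fun {R _} _ _ _ _ φ {_ _} _ =>
    (bcHom_isPullback φ (N₀.bc (Algebra.ofId K R))).Fam4_isoComp _

end CMod

variable {C : Curve K} {Par : PtF K}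

theorem IsFam.const (c : Pic C K) : IsFam Par (fun _ => c) := by
  obtain ⟨N₀, rfl⟩ := Pic.exists_rep c
  exact ⟨CMod.Fam4_const N₀ Par, fun _ =>
    CMod.cls_eq_iff.2 (CMod.Fam4_iso_bc_id (Subsingleton.elim _ _) N₀)⟩

end Fermat.Agent.S26
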