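/-
S26 / Rig / Fam5 (RIG-FAM-5) : `H¹` of a family of line bundles on `C` is a coherent `ModFun`;
closed loci on an affine parameter space, projection.

`CFam.fam5_*` : the statements for a `CFam` (they use nothing of `Rig/Interface.lean`);
`IsFam.closed_affine`, `IsFam.closed_proj` : the statements of `Rig/Interface.lean` (only the definition `IsFam`
of that file is used).
-/
import Fermat.Agent.S26.Rig.Defs
import Fermat.Agent.S26.Alg.Semicont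
import Fermat.Agent.S26.P1.BaseChange
import Fermat.Agent.S26.P1.Finite
import Fermat.Agent.S26.P1.Twist

set_option autoImplicit false

open scoped TensorProduct

universe u

namespace Fermat.Agent.S26

variable {K : Type u} [Field K]

/-- `τ ↦ H¹(C × Spec S, 𝓝_τ)` as a coherent sheaf on the parameter functor -/
noncomputable def CFam.fam5H1 {C : Curve K} {Par : PtF K} (𝓝 : CFam C Par) : ModFun Par where
  H := fun τ => ((𝓝.N τ).toP1Mod.twist 0).H1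
  acg := fun _ => inferInstance
  mod := fun _ => inferInstance
  fin := fun _ => P1Mod.finite_H1 _
  bc := fun φ _ _ h => ((𝓝.bc φ h).toP1 0).H1map
  isBC := fun φ _ _ h => ((𝓝.isPullback φ h).isBC_toP1 0).isBC_H1map

theorem CFam.fam5_finrank {C : Curve K} {Par : PtF K} (𝓝 : CFam C Par) (τ : Par.pt K) :
    Module.finrank K (𝓝.fam5H1.H τ) = ((𝓝.N τ).cls).h1 := by
  rw [Pic.h1_cls]
  show ((𝓝.N τ).toP1Mod.twist 0).h1 = (𝓝.N τ).toP1Mod.h1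
  rw [P1Mod.twist_zero]

/-- the locus `h¹ ≥ k` is closed, for the pull back of the family along any `R₁`-valued point -/
theorem CFam.fam5_closed_of_point {C : Curve K} {Par : PtF K} (𝓝 : CFam C Par) (R₁ : Type u)
    [CommRing R₁] [Algebra K R₁] (ι : Par.pt R₁) (k : ℕ) :
    ∃ J : Ideal R₁, ∀ w : R₁ →ₐ[K] K,
      k ≤ ((𝓝.N (Par.map w ι)).cls).h1 ↔ J ≤ RingHom.ker w := by
  have hfin : Module.Finite R₁ (𝓝.fam5H1.H ι) := 𝓝.fam5H1.fin _
  obtain ⟨J, hJ⟩ := (PrimeSpectrum.isClosed_iff_zeroLocus_ideal _).1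
    (isClosed_finrank_fiber_ge R₁ (𝓝.fam5H1.H ι) k)
  refine ⟨J, fun w => ?_⟩
  have hprime : (RingHom.ker w).IsPrime := RingHom.ker_isPrime w
  have h1 := IsBC.finrank_eq w.toRingHom (𝓝.fam5H1.isBC w (a := ι) rfl)
    ⟨RingHom.ker w, hprime⟩ rfl
  rw [← 𝓝.fam5_finrank, h1]
  have h2 : (⟨RingHom.ker w, hprime⟩ : PrimeSpectrum R₁) ∈ PrimeSpectrum.zeroLocus (J : Set R₁) ↔
      J ≤ RingHom.ker w := PrimeSpectrum.mem_zeroLocus _ _
  rw [← h2, ← hJ]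
  rfl

/-- closed loci on an affine parameter space -/
theorem CFam.fam5_closed_affine {C : Curve K} (R₁ : Type u) [CommRing R₁] [Algebra K R₁]
    (𝓝 : CFam C (PtF.ofAlg K R₁)) (k : ℕ) :
    ∃ J : Ideal R₁, ∀ w : R₁ →ₐ[K] K,
      k ≤ ((𝓝.N (R := K) (w : (PtF.ofAlg K R₁).pt K)).cls).h1 ↔ J ≤ RingHom.ker w :=
  𝓝.fam5_closed_of_point R₁ (AlgHom.id K R₁) k

/-- properness -/
theorem CFam.fam5_closed_proj {C : Curve K} {𝔸 : AVF K} (hP : HasProj 𝔸) (R₁ : Type u)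
    [CommRing R₁] [Algebra K R₁] [Algebra.FiniteType K R₁]
    (𝓝 : CFam C (𝔸.toPtF.prod (PtF.ofAlg K R₁))) (k : ℕ) :
    ∃ J : Ideal R₁, ∀ w : R₁ →ₐ[K] K,
      (∃ a : 𝔸.pt K, k ≤ ((𝓝.N (PtF.pair (Y := PtF.ofAlg K R₁) a w)).cls).h1) ↔
        J ≤ RingHom.ker w := by
  obtain ⟨J, hJ⟩ := hP R₁ 𝓝.fam5H1 k
  refine ⟨J, fun w => ?_⟩
  rw [← hJ w]
  simp only [CFam.fam5_finrank]

/-! ### the statements of `Rig/Interface.lean` -/

/-- closed loci on an affine parameter space -/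
theorem IsFam.closed_affine [IsAlgClosed K] {C : Curve K} (R₁ : Type u) [CommRing R₁]
    [Algebra K R₁] {c : (PtF.ofAlg K R₁).pt K → Pic C K} (h : IsFam (PtF.ofAlg K R₁) c) (k : ℕ) :
    ∃ J : Ideal R₁, ∀ w : R₁ →ₐ[K] K, k ≤ (c w).h1 ↔ J ≤ RingHom.ker w := by
  obtain ⟨𝓝, h𝓝⟩ := h
  obtain ⟨J, hJ⟩ := 𝓝.fam5_closed_affine R₁ k
  exact ⟨J, fun w => (h𝓝 w).symm ▸ hJ w⟩

/-- properness -/
theorem IsFam.closed_proj [IsAlgClosed K] {C : Curve K} {𝔸 : AVF K} (hP : HasProj 𝔸)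
    (R₁ : Type u) [CommRing R₁] [Algebra K R₁]
    [Algebra.FiniteType K R₁] {c : (𝔸.toPtF.prod (PtF.ofAlg K R₁)).pt K → Pic C K}
    (h : IsFam (𝔸.toPtF.prod (PtF.ofAlg K R₁)) c) (k : ℕ) :
    ∃ J : Ideal R₁, ∀ w : R₁ →ₐ[K] K,
      (∃ a : 𝔸.pt K, k ≤ (c (PtF.pair (Y := PtF.ofAlg K R₁) a w)).h1) ↔ J ≤ RingHom.ker w := by
  obtain ⟨𝓝, h𝓝⟩ := h
  obtain ⟨J, hJ⟩ := 𝓝.fam5_closed_proj hP R₁ k
  exact ⟨J, fun w => by simp only [h𝓝]; exact hJ w⟩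

end Fermat.Agent.S26
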