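/-
S26 / Rig / Top (RIG-TOP) : the Zariski topology on `𝔸(K)`: density, irreducibility, closed loci.
The statements are those of `Rig/Interface.lean`, section RIG-TOP, with a prime.
-/
import Fermat.Agent.S26.Rig.Fam3
import Fermat.Agent.S26.Rig.Fam5
import Fermat.Agent.S26.PI.Le
import Fermat.Agent.S27.B.TensorDomain

set_option autoImplicit false

open scoped TensorProduct

universe u

namespace Fermat.Agent.S26

variable {K : Type u} [Field K] [IsAlgClosed K]

/-- (N) Nullstellensatz: an ideal vanishing at all the points of a nonempty principal open set of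
an integral affine variety is zero. -/
theorem Top_null {R₀ : Type*} [CommRing R₀] [IsDomain R₀] [Algebra K R₀] [Algebra.FiniteType K R₀]
    (J : Ideal R₀) (s : R₀) (hs : s ≠ 0)
    (h : ∀ w : R₀ →ₐ[K] K, w s ≠ 0 → J ≤ RingHom.ker w) : J = ⊥ := by
  rw [eq_bot_iff]
  intro b hb
  by_contra hb0
  have hb0' : b ≠ 0 := hb0
  obtain ⟨w, hw⟩ := Fermat.Agent.S27.td_exists_algHom_ne_zero K R₀ (b * s) (mul_ne_zero hb0' hs)
  rw [map_mul] at hw
  have h1 : w b = 0 := h w (right_ne_zero_of_mul hw) hb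
  exact hw (by rw [h1, zero_mul])

omit [IsAlgClosed K] in
theorem Top_cst_self (𝔸 : AVF K) (c : 𝔸.pt K) : 𝔸.cst K c = c := by
  unfold AVF.cst
  have : Algebra.ofId K K = AlgHom.id K K := AlgHom.ext fun x => rfl
  rw [this, 𝔸.map_id]

section Top

variable {𝔸 : AVF K} {g : ℕ}

omit [IsAlgClosed K] in
/-- a homomorphism `R₀ → Frac R₀` factors through a principal localisation -/
theorem Top_exists_factor (G : Geo 𝔸 g) (j : G.R₀ →ₐ[K] G.FF) :
    ∃ s : G.R₀, s ≠ 0 ∧ ∃ (_ : Algebra (Localization.Away s) G.FF)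
      (_ : IsScalarTower G.R₀ (Localization.Away s) G.FF)
      (_ : IsScalarTower K (Localization.Away s) G.FF) (_ : IsDomain (Localization.Away s))
      (_ : IsFractionRing (Localization.Away s) G.FF),
      ∃ j' : G.R₀ →ₐ[K] Localization.Away s,
        ∀ x, algebraMap (Localization.Away s) G.FF (j' x) = j x := by
  classical
  obtain ⟨T, hT⟩ := (Algebra.FiniteType.out : (⊤ : Subalgebra K G.R₀).FG)
  obtain ⟨s, hs⟩ := IsLocalization.exist_integer_multiples_of_finset (nonZeroDivisors G.R₀)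
    (T.image (fun x => j x))
  have hle : Submonoid.powers (s : G.R₀) ≤ nonZeroDivisors G.R₀ := Submonoid.powers_le.2 s.2
  have hs0 : algebraMap G.R₀ G.FF (s : G.R₀) ≠ 0 :=
    IsFractionRing.to_map_ne_zero_of_mem_nonZeroDivisors s.2
  let i1 : Algebra (Localization.Away (s : G.R₀)) G.FF :=
    IsLocalization.localizationAlgebraOfSubmonoidLe (Localization.Away (s : G.R₀)) G.FF
      (Submonoid.powers (s : G.R₀)) (nonZeroDivisors G.R₀) hle
  have i2 : IsScalarTower G.R₀ (Localization.Away (s : G.R₀)) G.FF :=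
    IsLocalization.localization_isScalarTower_of_submonoid_le (Localization.Away (s : G.R₀)) G.FF
      (Submonoid.powers (s : G.R₀)) (nonZeroDivisors G.R₀) hle
  have i3 : IsScalarTower K (Localization.Away (s : G.R₀)) G.FF :=
    IsScalarTower.of_algebraMap_eq fun c => by
      rw [IsScalarTower.algebraMap_apply K G.R₀ (Localization.Away (s : G.R₀)),
        ← IsScalarTower.algebraMap_apply G.R₀ (Localization.Away (s : G.R₀)) G.FF,
        ← IsScalarTower.algebraMap_apply K G.R₀ G.FF]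
  have i4 : IsDomain (Localization.Away (s : G.R₀)) := IsLocalization.isDomain_localization hle
  have i5 : IsFractionRing (Localization.Away (s : G.R₀)) G.FF :=
    IsFractionRing.isFractionRing_of_isDomain_of_isLocalization (Submonoid.powers (s : G.R₀))
      (Localization.Away (s : G.R₀)) G.FF
  have hinj : Function.Injective (IsScalarTower.toAlgHom K (Localization.Away (s : G.R₀)) G.FF) :=
    IsFractionRing.injective (Localization.Away (s : G.R₀)) G.FF
  have hrange : ∀ x : G.R₀, j x ∈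
      (IsScalarTower.toAlgHom K (Localization.Away (s : G.R₀)) G.FF).range := by
    have h1 : Algebra.adjoin K (T : Set G.R₀) ≤
        (IsScalarTower.toAlgHom K (Localization.Away (s : G.R₀)) G.FF).range.comap j := by
      rw [Algebra.adjoin_le_iff]
      intro x hx
      obtain ⟨c, hc⟩ := hs _ (Finset.mem_image_of_mem _ hx)
      refine ⟨IsLocalization.mk' (Localization.Away (s : G.R₀)) c
        (⟨(s : G.R₀), Submonoid.mem_powers _⟩ : Submonoid.powers (s : G.R₀)), ?_⟩
      have h2 := congrArg (algebraMap (Localization.Away (s : G.R₀)) G.FF)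
        (IsLocalization.mk'_spec (Localization.Away (s : G.R₀)) c
          (⟨(s : G.R₀), Submonoid.mem_powers _⟩ : Submonoid.powers (s : G.R₀)))
      rw [map_mul, ← IsScalarTower.algebraMap_apply, ← IsScalarTower.algebraMap_apply, hc,
        Algebra.smul_def, mul_comm] at h2
      exact mul_left_cancel₀ hs0 h2
    intro x
    exact h1 (hT ▸ Algebra.mem_top)
  refine ⟨s, nonZeroDivisors.ne_zero s.2, i1, i2, i3, i4, i5,
    ((AlgEquiv.ofInjective _ hinj).symm : _ →ₐ[K] Localization.Away (s : G.R₀)).comp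
      (j.codRestrict _ hrange), ?_⟩
  intro x
  have h3 := AlgEquiv.apply_symm_apply (AlgEquiv.ofInjective _ hinj) (j.codRestrict _ hrange x)
  exact congrArg Subtype.val h3

/-- the translate by `a` of a general point of `U₀` lies in `U₀` -/
theorem Top_exists_trans (G : Geo 𝔸 g) (a : 𝔸.pt K) : ∃ s : G.R₀, s ≠ 0 ∧
    ∀ w : G.R₀ →ₐ[K] K, w s ≠ 0 → ∃ w' : G.R₀ →ₐ[K] K, 𝔸.map w G.ι₀ + a = 𝔸.map w' G.ι₀ := by
  obtain ⟨j, -, hja⟩ := G.gen_trans a
  obtain ⟨s, hs, i1, i2, i3, i4, i5, j', hj'⟩ := Top_exists_factor G j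
  refine ⟨s, hs, fun w hw => ?_⟩
  -- the identity in `𝔸(R₀[1/s])`
  have hkey : 𝔸.map j' G.ι₀ =
      𝔸.map (IsScalarTower.toAlgHom K G.R₀ (Localization.Away s)) G.ι₀ +
        𝔸.cst (Localization.Away s) a := by
    apply G.sep (Localization.Away s) G.FF
    rw [𝔸.map_add, ← 𝔸.map_comp, ← 𝔸.map_comp, Le_map_cst]
    have e1 : (IsScalarTower.toAlgHom K (Localization.Away s) G.FF).comp
        (IsScalarTower.toAlgHom K G.R₀ (Localization.Away s)) =
        IsScalarTower.toAlgHom K G.R₀ G.FF := by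
      ext x
      exact (IsScalarTower.algebraMap_apply G.R₀ (Localization.Away s) G.FF x).symm
    have e2 : (IsScalarTower.toAlgHom K (Localization.Away s) G.FF).comp j' = j := by
      ext x
      exact hj' x
    rw [e1, e2]
    exact hja
  -- extend `w` to the localisation
  have hunit : ∀ y : Submonoid.powers s, IsUnit (w y) := by
    rintro ⟨_, n, rfl⟩
    rw [map_pow]
    exact (IsUnit.mk0 _ hw).pow n
  let wt : Localization.Away s →ₐ[K] K :=
    IsLocalization.liftAlgHom (M := Submonoid.powers s) (f := w) hunit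
  have hwt : wt.comp (IsScalarTower.toAlgHom K G.R₀ (Localization.Away s)) = w := by
    ext x
    simp [wt]
  refine ⟨wt.comp j', ?_⟩
  rw [𝔸.map_comp, hkey, 𝔸.map_add, ← 𝔸.map_comp, hwt, Le_map_cst, Top_cst_self]

theorem Geo.eq_univ_of_dense (G : Geo 𝔸 g) {T : Set (𝔸.pt K)} (hT : G.IsClosedA T) (s : G.R₀)
    (hs : s ≠ 0) (h : ∀ w : G.R₀ →ₐ[K] K, w s ≠ 0 → 𝔸.map w G.ι₀ ∈ T) : T = Set.univ := by
  -- the chart `a = 0`
  have h0 : ∀ w : G.R₀ →ₐ[K] K, 𝔸.map w G.ι₀ ∈ T := by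
    obtain ⟨J, hJ⟩ := hT 0
    have hJ0 : J = ⊥ := Top_null J s hs fun w hw => (hJ w).mp (by rw [add_zero]; exact h w hw)
    intro w
    have := (hJ w).mpr (by rw [hJ0]; exact bot_le)
    rwa [add_zero] at this
  -- the other charts
  have h1 : ∀ (a : 𝔸.pt K) (w : G.R₀ →ₐ[K] K), 𝔸.map w G.ι₀ + a ∈ T := by
    intro a
    obtain ⟨J, hJ⟩ := hT a
    obtain ⟨s', hs', htr⟩ := Top_exists_trans G a
    have hJ0 : J = ⊥ := Top_null J s' hs' fun w hw => (hJ w).mp (by
      obtain ⟨w', hw'⟩ := htr w hw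
      rw [hw']
      exact h0 w')
    intro w
    exact (hJ w).mpr (by rw [hJ0]; exact bot_le)
  obtain ⟨l, hl⟩ := G.cover
  rw [Set.eq_univ_iff_forall]
  intro y
  obtain ⟨a, -, w, rfl⟩ := hl K y
  rw [Top_cst_self]
  exact h1 a w

theorem Geo.irreducible (G : Geo 𝔸 g) {ι : Type*} (S : Finset ι) (T : ι → Set (𝔸.pt K))
    (hT : ∀ i ∈ S, G.IsClosedA (T i)) (h : ∀ y, ∃ i ∈ S, y ∈ T i) : ∃ i ∈ S, T i = Set.univ := by
  classical
  choose! J hJ using fun i (hi : i ∈ S) => hT i hi 0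
  have hprod : ∏ i ∈ S, J i = ⊥ := by
    refine Top_null (K := K) _ 1 one_ne_zero fun w _ => ?_
    obtain ⟨i, hi, hy⟩ := h (𝔸.map w G.ι₀ + 0)
    exact (Ideal.prod_le_inf.trans (Finset.inf_le hi)).trans ((hJ i hi w).mp hy)
  rw [← Ideal.zero_eq_bot, Finset.prod_eq_zero_iff] at hprod
  obtain ⟨i, hi, hJi⟩ := hprod
  refine ⟨i, hi, G.eq_univ_of_dense (hT i hi) 1 one_ne_zero fun w _ => ?_⟩
  have := (hJ i hi w).mpr (by rw [hJi]; exact bot_le)
  rwa [add_zero] at this

theorem IsFam.closedA (G : Geo 𝔸 g) {C : Curve K} {c : 𝔸.pt K → Pic C K} (h : IsFam 𝔸.toPtF c)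
    (k : ℕ) : G.IsClosedA {y | k ≤ (c y).h1} := by
  intro a
  let F : PtHom (PtF.ofAlg K G.R₀) 𝔸.toPtF :=
    { app := fun {S} _ _ w => 𝔸.map w G.ι₀ + 𝔸.cst S a
      nat := fun {S S'} _ _ _ _ φ w => by
        show 𝔸.map φ (𝔸.map (show G.R₀ →ₐ[K] S from w) G.ι₀ + 𝔸.cst S a) =
          𝔸.map (φ.comp (show G.R₀ →ₐ[K] S from w)) G.ι₀ + 𝔸.cst S' a
        rw [𝔸.map_add, 𝔸.map_comp, Le_map_cst] }
  obtain ⟨J, hJ⟩ := IsFam.closed_affine G.R₀ (h.comap F) k
  refine ⟨J, fun w => ?_⟩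
  have h1 : F.app w = 𝔸.map w G.ι₀ + a := by
    show 𝔸.map w G.ι₀ + 𝔸.cst K a = _
    rw [Top_cst_self]
  rw [← hJ w, h1]
  rfl

end Top

end Fermat.Agent.S26
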