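/-
S26 / Rig / Interface : the interface between the sub-blocks of block RIG (theorem of the square on a
curve).  AGGREGATOR (INT-TOP, helper93).
  definitions : `Rig/Defs.lean`
  RIG-FAM  : algebraic families of classes (`IsFam`), closed loci, projection : `Rig/Fam3-5.lean`
  RIG-TOP  : the Zariski topology on `𝔸(K)` (irreducibility, density) : `Rig/Top.lean`
  RIG-PK   : points of `C`, the classes `[Q]`, nonspecial classes : `Rig/PK/*` (wired below)
  RIG-MAIN : the rigidity argument : `Rig/MainDefs.lean`, `Rig/M0-4.lean`, `Rig/Main.lean`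
-/
import Fermat.Agent.S26.Rig.Defs
import Fermat.Agent.S26.Rig.Fam3
import Fermat.Agent.S26.Rig.Fam4
import Fermat.Agent.S26.Rig.Fam5
import Fermat.Agent.S26.Rig.Top
import Fermat.Agent.S26.Rig.PK.Main

set_option autoImplicit false

open scoped TensorProduct

universe u

namespace Fermat.Agent.S26

variable {K : Type u} [Field K] [IsAlgClosed K]

/-! ### RIG-PK -/

/-- the class of `O(Q)` -/
noncomputable def Curve.ptCls (C : Curve K) (Q : C.Pt) : Pic C K := PK.ptCls C Q

section PK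

variable (C : Curve K)

theorem Curve.deg_ptCls (Q : C.Pt) : Pic.deg (C.ptCls Q) = 1 := PK.deg_ptCls C Q

theorem Curve.h0_sub_ptCls_le (c : Pic C K) (Q : C.Pt) : (c - C.ptCls Q).h0 ≤ c.h0 :=
  PK.h0_sub_ptCls_le C c Q

theorem Curve.h0_le_sub_ptCls (c : Pic C K) (Q : C.Pt) : c.h0 ≤ (c - C.ptCls Q).h0 + 1 :=
  PK.h0_le_sub_ptCls C c Q

/-- a nonzero section of a line bundle of positive degree has a zero -/
theorem Curve.exists_zero (c : Pic C K) (hd : 0 < Pic.deg c) (h : 0 < c.h0) :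
    ∃ Q : C.Pt, 0 < (c - C.ptCls Q).h0 := PK.exists_zero C c hd h

/-- a general point imposes one condition -/
theorem Curve.exists_pt01_drop (c : Pic C K) (h : 0 < c.h0) :
    ∃ q : C.B01 →ₐ[K] K, (c - C.ptCls (C.pt01 q)).h0 + 1 = c.h0 := PK.exists_pt01_drop C c h

theorem Curve.exists_finite_boundary : ∃ S₀ : Finset C.Pt, ∀ Q : C.Pt,
    Q ∈ S₀ ∨ ∃ q : C.B01 →ₐ[K] K, C.ptCls Q = C.ptCls (C.pt01 q) := PK.exists_finite_boundary C

theorem Curve.finite_zeroLocus (J : Ideal C.B01) (hJ : J ≠ ⊥) :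
    {q : C.B01 →ₐ[K] K | J ≤ RingHom.ker q}.Finite := PK.finite_zeroLocus C J hJ

/-- a nonspecial class of degree `g_C` -/
theorem Curve.exists_nonspecial : ∃ c : Pic C K, Pic.deg c = ((0 : Pic C K).h1 : ℤ) ∧ c.h1 = 0 :=
  PK.exists_nonspecial C

/-- the universal point: `q ↦ - [q]` is an algebraic family -/
theorem Curve.isFam_neg_ptCls :
    IsFam (PtF.ofAlg K C.B01) (fun q : C.B01 →ₐ[K] K => - C.ptCls (C.pt01 q)) :=
  PK.isFam_neg_ptCls C

end PK

end Fermat.Agent.S26
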