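/-
S26 / Rig / MainDefs : the definitions of the rigidity argument (block RIG-MAIN).
-/
import Fermat.Agent.S26.Rig.Interface

set_option autoImplicit false

open scoped TensorProduct

universe u

namespace Fermat.Agent.S26

variable {K : Type u} [Field K] [IsAlgClosed K] {𝔸 : AVF K} {g : ℕ} {C : Curve K}

/-- black box (block TI, AV/TI.lean) -/
def TIStatement (𝔸 : AVF K) : Prop :=
  ∀ (𝓜 : LBun 𝔸.toPtF) {C : Curve K} (f : CPt C 𝔸.toPtF K)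
    (κ : Type u) [Field κ] [Algebra K κ] (u : 𝔸.pt κ),
    (𝓜.pull (f.base κ + CPt.cst C u)).deg = (𝓜.pull f).deg

/-- the class of `(h + y)^* 𝓜` -/
noncomputable def rigM (𝓜 : LBun 𝔸.toPtF) (h : CPt C 𝔸.toPtF K) (y : 𝔸.pt K) : Pic C K :=
  (𝓜.pull (h + CPt.cst C y)).cls

/-- the Mumford class `m(y+z) + m(0) - m(y) - m(z)` -/
noncomputable def rigL (𝓜 : LBun 𝔸.toPtF) (h : CPt C 𝔸.toPtF K) (y z : 𝔸.pt K) : Pic C K :=
  rigM 𝓜 h (y + z) + rigM 𝓜 h 0 - rigM 𝓜 h y - rigM 𝓜 h z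

variable (𝓜 : LBun 𝔸.toPtF) (h : CPt C 𝔸.toPtF K)

/-! ### M0 : formal properties -/

theorem rigL_zero_left (z : 𝔸.pt K) : rigL 𝓜 h 0 z = 0 := by
  simp [rigL]

theorem rigL_zero_right (y : 𝔸.pt K) : rigL 𝓜 h y 0 = 0 := by
  simp [rigL]

end Fermat.Agent.S26
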