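/-
S26 / Rig / M0 (RIG-M0) : formal properties of the Mumford class `rigL` (degree 0, algebraic families).
The statements are those of section M0 of `Rig/Main.lean`, with a prime.
-/
import Fermat.Agent.S26.Rig.MainDefs

set_option autoImplicit false

open scoped TensorProduct

universe u

namespace Fermat.Agent.S26

variable {K : Type u} [Field K] [IsAlgClosed K] {𝔸 : AVF K} {g : ℕ} {C : Curve K}

/-! ### auxiliary morphisms of functors -/

omit [IsAlgClosed K] in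
theorem M0_map_cst {S S' : Type u} [CommRing S] [Algebra K S] [CommRing S'] [Algebra K S']
    (φ : S →ₐ[K] S') (a : 𝔸.pt K) : 𝔸.map φ (𝔸.cst S a) = 𝔸.cst S' a := by
  unfold AVF.cst
  rw [← 𝔸.map_comp]
  congr 1
  exact AlgHom.ext fun k => φ.commutes k

omit [IsAlgClosed K] in
theorem M0_cst_self (a : 𝔸.pt K) : 𝔸.cst K a = a := by
  unfold AVF.cst
  have : Algebra.ofId K K = AlgHom.id K K := AlgHom.ext fun _ => rfl
  rw [this, 𝔸.map_id]

/-- the constant morphism -/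
def M0_const (X : PtF K) (z : 𝔸.pt K) : PtHom X 𝔸.toPtF where
  app := fun {S} _ _ _ => 𝔸.cst S z
  nat := fun φ _ => M0_map_cst φ z

/-- sum of two morphisms to `𝔸` -/
def M0_add {X : PtF K} (F F' : PtHom X 𝔸.toPtF) : PtHom X 𝔸.toPtF where
  app := fun a => F.app a + F'.app a
  nat := fun φ a => by
    show 𝔸.map φ (F.app a + F'.app a) = _
    rw [𝔸.map_add]
    exact congrArg₂ (· + ·) (F.nat φ a) (F'.nat φ a)

/-- the identity -/
def M0_id (X : PtF K) : PtHom X X where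
  app := fun a => a
  nat := fun _ _ => rfl

/-- first projection -/
def M0_fst (X Y : PtF K) : PtHom (X.prod Y) X where
  app := fun a => a.1
  nat := fun _ _ => rfl

/-- second projection -/
def M0_snd (X Y : PtF K) : PtHom (X.prod Y) Y where
  app := fun a => a.2
  nat := fun _ _ => rfl

/-- the morphism `Spec R₀ → 𝔸` defined by a point `ι ∈ 𝔸(R₀)` -/
def M0_ofPt (R₀ : Type u) [CommRing R₀] [Algebra K R₀] (ι : 𝔸.pt R₀) :
    PtHom (PtF.ofAlg K R₀) 𝔸.toPtF where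
  app := fun w => 𝔸.map (show R₀ →ₐ[K] _ from w) ι
  nat := fun φ w => (𝔸.map_comp φ (show R₀ →ₐ[K] _ from w) ι).symm

/-- composition -/
def M0_comp {X Y Z : PtF K} (F : PtHom Y Z) (F' : PtHom X Y) : PtHom X Z where
  app := fun a => F.app (F'.app a)
  nat := fun φ a => by rw [F.nat, F'.nat]

variable (𝓜 : LBun 𝔸.toPtF) (h : CPt C 𝔸.toPtF K)

theorem M0_isFam_rigM : IsFam 𝔸.toPtF (rigM 𝓜 h) := IsFam.pull 𝓜 h

theorem M0_isFam_sub {Par : PtF K} {c c' : Par.pt K → Pic C K} (hc : IsFam Par c)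
    (hc' : IsFam Par c') : IsFam Par (fun τ => c τ - c' τ) := by
  have := hc.add hc'.neg
  simpa only [← sub_eq_add_neg] using this

/-- the general statement: `rigL` of two morphisms to `𝔸` is an algebraic family. -/
theorem M0_isFam_rigL {Par : PtF K} (F F' : PtHom Par 𝔸.toPtF) :
    IsFam Par (fun τ : Par.pt K => rigL 𝓜 h (F.app τ) (F'.app τ)) := by
  have h1 : IsFam Par (fun τ : Par.pt K => rigM 𝓜 h (F.app τ + F'.app τ)) :=
    (M0_isFam_rigM 𝓜 h).comap (M0_add F F')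
  have h2 : IsFam Par (fun _ : Par.pt K => rigM 𝓜 h 0) := IsFam.const _
  have h3 : IsFam Par (fun τ : Par.pt K => rigM 𝓜 h (F.app τ)) := (M0_isFam_rigM 𝓜 h).comap F
  have h4 : IsFam Par (fun τ : Par.pt K => rigM 𝓜 h (F'.app τ)) := (M0_isFam_rigM 𝓜 h).comap F'
  exact M0_isFam_sub (M0_isFam_sub (h1.add h2) h3) h4

omit [IsAlgClosed K] in
theorem M0_base_self : h.base K = h := by
  have e0 : C.m0 (Algebra.ofId K K) = AlgHom.id K (C.S0 K) := by
    ext; simp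
  have e1 : C.m1 (Algebra.ofId K K) = AlgHom.id K (C.S1 K) := by
    ext; simp
  have e01 : C.m01 (Algebra.ofId K K) = AlgHom.id K (C.S01 K) := by
    ext; simp
  apply CPt.ext
  · show 𝔸.map (C.m0 (Algebra.ofId K K)) h.u0 = h.u0
    rw [e0, 𝔸.map_id]
  · show 𝔸.map (C.m1 (Algebra.ofId K K)) h.u1 = h.u1
    rw [e1, 𝔸.map_id]
  · show 𝔸.map (C.m01 (Algebra.ofId K K)) h.u01 = h.u01
    rw [e01, 𝔸.map_id]

theorem M0_deg_rigM (hTI : TIStatement 𝔸) (y : 𝔸.pt K) :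
    Pic.deg (rigM 𝓜 h y) = (𝓜.pull h).deg := by
  have := hTI 𝓜 h K y
  rw [M0_base_self] at this
  exact this

/-! ### the statements of section M0 -/

theorem deg_rigL (hTI : TIStatement 𝔸) (y z : 𝔸.pt K) : Pic.deg (rigL 𝓜 h y z) = 0 := by
  rw [rigL, map_sub, map_sub, map_add, M0_deg_rigM 𝓜 h hTI, M0_deg_rigM 𝓜 h hTI,
    M0_deg_rigM 𝓜 h hTI, M0_deg_rigM 𝓜 h hTI]
  ring

theorem isFam_rigL_left (z : 𝔸.pt K) : IsFam 𝔸.toPtF (fun y => rigL 𝓜 h y z) := by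
  have := M0_isFam_rigL 𝓜 h (M0_id 𝔸.toPtF) (M0_const 𝔸.toPtF z)
  simpa only [M0_id, M0_const, M0_cst_self] using this

theorem isFam_rigL_right (y : 𝔸.pt K) : IsFam 𝔸.toPtF (fun z => rigL 𝓜 h y z) := by
  have := M0_isFam_rigL 𝓜 h (M0_const 𝔸.toPtF y) (M0_id 𝔸.toPtF)
  simpa only [M0_id, M0_const, M0_cst_self] using this

theorem isFam_rigL_chart (G : Geo 𝔸 g) :
    IsFam (𝔸.toPtF.prod (PtF.ofAlg K G.R₀))
      (fun p => rigL 𝓜 h p.1 (𝔸.map (show G.R₀ →ₐ[K] K from p.2) G.ι₀)) :=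
  M0_isFam_rigL 𝓜 h (M0_fst 𝔸.toPtF (PtF.ofAlg K G.R₀))
    (M0_comp (M0_ofPt G.R₀ G.ι₀) (M0_snd 𝔸.toPtF (PtF.ofAlg K G.R₀)))

theorem isFam_rigL_fst (z : 𝔸.pt K) (R₁ : Type u) [CommRing R₁] [Algebra K R₁] :
    IsFam (𝔸.toPtF.prod (PtF.ofAlg K R₁)) (fun p => rigL 𝓜 h p.1 z) := by
  have := M0_isFam_rigL 𝓜 h (M0_fst 𝔸.toPtF (PtF.ofAlg K R₁))
    (M0_const (𝔸.toPtF.prod (PtF.ofAlg K R₁)) z)
  simpa only [M0_fst, M0_const, M0_cst_self] using this

theorem isFam_snd {R₁ : Type u} [CommRing R₁] [Algebra K R₁]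
    {c : (PtF.ofAlg K R₁).pt K → Pic C K} (hc : IsFam (PtF.ofAlg K R₁) c) :
    IsFam (𝔸.toPtF.prod (PtF.ofAlg K R₁)) (fun p => c p.2) :=
  hc.comap (M0_snd 𝔸.toPtF (PtF.ofAlg K R₁))

end Fermat.Agent.S26
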