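/-
S26 / Rig / M1 : a neighbourhood of `0` on which `h¹` does not jump (package RIG-M1).
-/
import Fermat.Agent.S26.Rig.M0

set_option autoImplicit false

open scoped TensorProduct

universe u

namespace Fermat.Agent.S26

variable {K : Type u} [Field K] [IsAlgClosed K] {𝔸 : AVF K} {g : ℕ} {C : Curve K}

variable (𝓜 : LBun 𝔸.toPtF) (h : CPt C 𝔸.toPtF K)

/-- one class: a function `s` on the chart, nonzero at the origin, such that `h¹` vanishes where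
`s ≠ 0`. -/
theorem M1_rig_open_one (G : Geo 𝔸 g) (hP : HasProj 𝔸) (c₁ : Pic C K) (h₁ : c₁.h1 = 0) :
    ∃ s : G.R₀, G.ε₀ s ≠ 0 ∧ ∀ w : G.R₀ →ₐ[K] K, w s ≠ 0 → ∀ y : 𝔸.pt K,
      (rigL 𝓜 h y (𝔸.map w G.ι₀) + c₁).h1 = 0 := by
  have hfam : IsFam (𝔸.toPtF.prod (PtF.ofAlg K G.R₀))
      (fun p => rigL 𝓜 h p.1 (𝔸.map (show G.R₀ →ₐ[K] K from p.2) G.ι₀) + c₁) :=
    (isFam_rigL_chart 𝓜 h G).add (IsFam.const c₁)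
  obtain ⟨J, hJ⟩ := hfam.closed_proj hP G.R₀ 1
  have h0 : ¬ J ≤ RingHom.ker G.ε₀ := by
    intro hle
    obtain ⟨a, ha⟩ := (hJ G.ε₀).2 hle
    have ha' : 1 ≤ (rigL 𝓜 h a (𝔸.map G.ε₀ G.ι₀) + c₁).h1 := ha
    rw [G.ε₀_ι₀, rigL_zero_right, zero_add, h₁] at ha'
    exact absurd ha' (by norm_num)
  obtain ⟨s, hsJ, hs⟩ := SetLike.not_le_iff_exists.1 h0
  refine ⟨s, fun h' => hs (RingHom.mem_ker.2 h'), fun w hw y => ?_⟩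
  by_contra hne
  have h1 : 1 ≤ (rigL 𝓜 h y (𝔸.map w G.ι₀) + c₁).h1 := Nat.one_le_iff_ne_zero.2 hne
  have hle : J ≤ RingHom.ker w := (hJ w).1 ⟨y, h1⟩
  exact hw (RingHom.mem_ker.1 (hle hsJ))

theorem rig_open (G : Geo 𝔸 g) (hP : HasProj 𝔸) (c₁ c₂ : Pic C K) (h₁ : c₁.h1 = 0) (h₂ : c₂.h1 = 0) :
    ∃ s : G.R₀, G.ε₀ s ≠ 0 ∧ ∀ w : G.R₀ →ₐ[K] K, w s ≠ 0 → ∀ y : 𝔸.pt K,
      (rigL 𝓜 h y (𝔸.map w G.ι₀) + c₁).h1 = 0 ∧ (rigL 𝓜 h y (𝔸.map w G.ι₀) + c₂).h1 = 0 := by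
  obtain ⟨s₁, hs₁, H₁⟩ := M1_rig_open_one 𝓜 h G hP c₁ h₁
  obtain ⟨s₂, hs₂, H₂⟩ := M1_rig_open_one 𝓜 h G hP c₂ h₂
  refine ⟨s₁ * s₂, by rw [map_mul]; exact mul_ne_zero hs₁ hs₂, fun w hw y => ?_⟩
  rw [map_mul] at hw
  exact ⟨H₁ w (left_ne_zero_of_mul hw) y, H₂ w (right_ne_zero_of_mul hw) y⟩

end Fermat.Agent.S26
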