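/-
S26 / Rig / M2 : the zeros of the moving sections lie in a finite set (package RIG-M2).
-/
import Fermat.Agent.S26.Rig.M0

set_option autoImplicit false

open scoped TensorProduct

universe u

namespace Fermat.Agent.S26

variable {K : Type u} [Field K] [IsAlgClosed K] {𝔸 : AVF K} {g : ℕ} {C : Curve K}

variable (𝓜 : LBun 𝔸.toPtF) (h : CPt C 𝔸.toPtF K)

/-- `χ(O_C) = 1 - g_C` -/
theorem M2_chi_one : (CMod.one C K).chi = 1 - ((0 : Pic C K).h1 : ℤ) := by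
  have h0 := Pic.h0_sub_h1 (0 : Pic C K)
  rw [Pic.h0_zero, map_zero, zero_add] at h0
  rw [← h0]
  norm_num

/-- Riemann-Roch in degree `g_C - 1`: `h⁰ = h¹`. -/
theorem M2_h0_eq_h1 (c : Pic C K) (hd : Pic.deg c = ((0 : Pic C K).h1 : ℤ) - 1) : c.h0 = c.h1 := by
  have h0 := Pic.h0_sub_h1 c
  rw [hd, M2_chi_one] at h0
  omega

theorem rig_support (hP : HasProj 𝔸) (hTI : TIStatement 𝔸) (z : 𝔸.pt K) (cE : Pic C K)
    (hdeg : Pic.deg cE = ((0 : Pic C K).h1 : ℤ)) (q : C.B01 →ₐ[K] K)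
    (hq : ∀ y, (rigL 𝓜 h y z + (cE - C.ptCls (C.pt01 q))).h1 = 0) :
    ∃ S : Finset C.Pt, ∀ (y : 𝔸.pt K) (Q : C.Pt), 0 < (rigL 𝓜 h y z + cE - C.ptCls Q).h0 →
      ∃ Q' ∈ S, C.ptCls Q' = C.ptCls Q := by
  classical
  have := C.finiteType_B01
  have hfam : IsFam (𝔸.toPtF.prod (PtF.ofAlg K C.B01))
      (fun p => rigL 𝓜 h p.1 z + cE +
        (- C.ptCls (C.pt01 (show C.B01 →ₐ[K] K from p.2)))) :=
    ((isFam_rigL_fst 𝓜 h z C.B01).add (IsFam.const cE)).add (isFam_snd (Curve.isFam_neg_ptCls C))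
  obtain ⟨J, hJ⟩ := hfam.closed_proj hP C.B01 1
  have hJ0 : J ≠ ⊥ := by
    rintro rfl
    obtain ⟨a, ha⟩ := (hJ q).2 bot_le
    have ha' : 1 ≤ (rigL 𝓜 h a z + cE + (- C.ptCls (C.pt01 q))).h1 := ha
    have e : rigL 𝓜 h a z + cE + (- C.ptCls (C.pt01 q)) =
        rigL 𝓜 h a z + (cE - C.ptCls (C.pt01 q)) := by abel
    rw [e, hq a] at ha'
    exact absurd ha' (by norm_num)
  have hfin := C.finite_zeroLocus J hJ0
  obtain ⟨S₀, hS₀⟩ := C.exists_finite_boundary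
  refine ⟨S₀ ∪ hfin.toFinset.image C.pt01, fun y Q hQ => ?_⟩
  rcases hS₀ Q with hmem | ⟨q', hq'⟩
  · exact ⟨Q, Finset.mem_union_left _ hmem, rfl⟩
  · refine ⟨C.pt01 q', Finset.mem_union_right _ (Finset.mem_image_of_mem _ ?_), hq'.symm⟩
    rw [Set.Finite.mem_toFinset]
    refine (hJ q').1 ⟨y, ?_⟩
    show 1 ≤ (rigL 𝓜 h y z + cE + (- C.ptCls (C.pt01 q'))).h1
    rw [← hq', ← sub_eq_add_neg, ← M2_h0_eq_h1]
    · exact hQ
    · rw [map_sub, map_add, deg_rigL 𝓜 h hTI, hdeg, C.deg_ptCls, zero_add]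

end Fermat.Agent.S26
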