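/-
S26 / Rig / M3 (RIG-M3) : `rig_induction` and `rig_const` (the moving divisor does not move).
Statements = `Rig/Main.lean`, section M3 (with a prime).
-/
import Fermat.Agent.S26.Rig.M2

set_option autoImplicit false

open scoped TensorProduct

universe u

namespace Fermat.Agent.S26

variable {K : Type u} [Field K] [IsAlgClosed K] {𝔸 : AVF K} {g : ℕ} {C : Curve K}

/-- Riemann-Roch with `χ(O) = 1 - g_C` -/
theorem M3_rr (c : Pic C K) :
    (c.h0 : ℤ) - c.h1 = Pic.deg c + 1 - ((0 : Pic C K).h1 : ℤ) := by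
  have h1 := Pic.h0_sub_h1 c
  have h2 := Pic.h0_sub_h1 (0 : Pic C K)
  rw [Pic.h0_zero, map_zero] at h2
  push_cast at h2
  linarith

theorem M3_deg_sum (l : List C.Pt) : Pic.deg (l.map C.ptCls).sum = l.length := by
  induction l with
  | nil => simp
  | cons Q l ih =>
    rw [List.map_cons, List.sum_cons, map_add, ih, C.deg_ptCls, List.length_cons]
    push_cast
    ring

theorem M3_h0_sub_sum_le (l : List C.Pt) (c : Pic C K) :
    (c - (l.map C.ptCls).sum).h0 ≤ c.h0 := by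
  induction l generalizing c with
  | nil => simp
  | cons Q l ih =>
    rw [List.map_cons, List.sum_cons, ← sub_sub]
    exact (ih _).trans (C.h0_sub_ptCls_le c Q)

variable (𝓜 : LBun 𝔸.toPtF) (h : CPt C 𝔸.toPtF K)

theorem rig_induction (G : Geo 𝔸 g) (hTI : TIStatement 𝔸) (z : 𝔸.pt K) (cE : Pic C K)
    (hdeg : Pic.deg cE = ((0 : Pic C K).h1 : ℤ)) (h0 : ∀ y, 0 < (rigL 𝓜 h y z + cE).h0)
    (S : Finset C.Pt)
    (hS : ∀ (y : 𝔸.pt K) (Q : C.Pt), 0 < (rigL 𝓜 h y z + cE - C.ptCls Q).h0 →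
      ∃ Q' ∈ S, C.ptCls Q' = C.ptCls Q) (k : ℕ) (hk : k ≤ (0 : Pic C K).h1) :
    ∃ l : List C.Pt, l.length = k ∧
      ∀ y, 0 < (rigL 𝓜 h y z + cE - (l.map C.ptCls).sum).h0 := by
  induction k with
  | zero => exact ⟨[], rfl, fun y => by simpa using h0 y⟩
  | succ k ih =>
    obtain ⟨l, hl, hpos⟩ := ih (Nat.le_of_succ_le hk)
    have hk' : ((k : ℤ) + 1) ≤ ((0 : Pic C K).h1 : ℤ) := by exact_mod_cast hk
    have hdegc : ∀ y, Pic.deg (rigL 𝓜 h y z + cE) = ((0 : Pic C K).h1 : ℤ) := by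
      intro y
      rw [map_add, deg_rigL 𝓜 h hTI, hdeg, zero_add]
    -- RR for the classes `c_y - D - [Q]`
    have hrr : ∀ (y : 𝔸.pt K) (Q : C.Pt),
        0 < (rigL 𝓜 h y z + cE - (l.map C.ptCls).sum - C.ptCls Q).h0 ↔
          k + 1 ≤ (rigL 𝓜 h y z + (cE - (l.map C.ptCls).sum - C.ptCls Q)).h1 := by
      intro y Q
      have e : rigL 𝓜 h y z + (cE - (l.map C.ptCls).sum - C.ptCls Q) =
          rigL 𝓜 h y z + cE - (l.map C.ptCls).sum - C.ptCls Q := by abel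
      rw [e]
      have h1 := M3_rr (rigL 𝓜 h y z + cE - (l.map C.ptCls).sum - C.ptCls Q)
      rw [map_sub, map_sub, hdegc, M3_deg_sum, C.deg_ptCls, hl] at h1
      omega
    let T : C.Pt → Set (𝔸.pt K) := fun Q =>
      {y | k + 1 ≤ (rigL 𝓜 h y z + (cE - (l.map C.ptCls).sum - C.ptCls Q)).h1}
    have hT : ∀ Q ∈ S, G.IsClosedA (T Q) := fun Q _ =>
      IsFam.closedA G ((isFam_rigL_left 𝓜 h z).add (IsFam.const _)) (k + 1)
    have hcov : ∀ y, ∃ Q ∈ S, y ∈ T Q := by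
      intro y
      have hd : 0 < Pic.deg (rigL 𝓜 h y z + cE - (l.map C.ptCls).sum) := by
        rw [map_sub, hdegc, M3_deg_sum, hl]
        omega
      obtain ⟨Q, hQ⟩ := C.exists_zero _ hd (hpos y)
      have hQ' : 0 < (rigL 𝓜 h y z + cE - C.ptCls Q).h0 := by
        refine lt_of_lt_of_le hQ ?_
        rw [sub_right_comm]
        exact M3_h0_sub_sum_le l _
      obtain ⟨Q', hQ'S, hQQ⟩ := hS y Q hQ'
      refine ⟨Q', hQ'S, (hrr y Q').mp ?_⟩
      rwa [hQQ]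
    obtain ⟨Q, -, hQ⟩ := G.irreducible S T hT hcov
    refine ⟨Q :: l, by rw [List.length_cons, hl], fun y => ?_⟩
    have hy : y ∈ T Q := hQ ▸ Set.mem_univ y
    have := (hrr y Q).mpr hy
    rwa [List.map_cons, List.sum_cons, add_comm (C.ptCls Q), ← sub_sub]

theorem rig_const (G : Geo 𝔸 g) (hP : HasProj 𝔸) (hTI : TIStatement 𝔸) (z : 𝔸.pt K) (cE : Pic C K)
    (hdeg : Pic.deg cE = ((0 : Pic C K).h1 : ℤ)) (q : C.B01 →ₐ[K] K)
    (h1 : ∀ y, (rigL 𝓜 h y z + cE).h1 = 0)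
    (hq : ∀ y, (rigL 𝓜 h y z + (cE - C.ptCls (C.pt01 q))).h1 = 0) (y : 𝔸.pt K) :
    rigL 𝓜 h y z = 0 := by
  have hdegc : ∀ y, Pic.deg (rigL 𝓜 h y z + cE) = ((0 : Pic C K).h1 : ℤ) := by
    intro y
    rw [map_add, deg_rigL 𝓜 h hTI, hdeg, zero_add]
  have h0 : ∀ y, 0 < (rigL 𝓜 h y z + cE).h0 := by
    intro y
    have h2 := M3_rr (rigL 𝓜 h y z + cE)
    rw [hdegc, h1] at h2
    push_cast at h2
    omega
  obtain ⟨S, hS⟩ := rig_support 𝓜 h hP hTI z cE hdeg q hq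
  obtain ⟨l, hl, hpos⟩ := rig_induction 𝓜 h G hTI z cE hdeg h0 S hS _ le_rfl
  have key : ∀ y, rigL 𝓜 h y z + cE = (l.map C.ptCls).sum := by
    intro y
    refine sub_eq_zero.mp (Pic.eq_zero_of_deg_eq_zero _ ?_ (hpos y))
    rw [map_sub, hdegc, M3_deg_sum, hl, sub_self]
  have h3 : rigL 𝓜 h y z + cE = rigL 𝓜 h 0 z + cE := (key y).trans (key 0).symm
  rw [rigL_zero_left, zero_add] at h3
  exact add_eq_right.mp h3

end Fermat.Agent.S26
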