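/-
S26 / Rig / M4 : conclusion of the rigidity argument (package RIG-M4):
`rigL_eq_zero` and `square_of_TI` (same statements as in `Rig/Main.lean`, section M4).
-/
import Fermat.Agent.S26.Rig.M1
import Fermat.Agent.S26.Rig.M3

set_option autoImplicit false

open scoped TensorProduct

universe u

namespace Fermat.Agent.S26

variable {K : Type u} [Field K] [IsAlgClosed K] {𝔸 : AVF K} {g : ℕ} {C : Curve K}

/-- Riemann-Roch with `χ(O) = 1 - g_C` -/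
theorem M4_RR (c : Pic C K) :
    (c.h0 : ℤ) - c.h1 = Pic.deg c + 1 - ((0 : Pic C K).h1 : ℤ) := by
  have h0 := Pic.h0_sub_h1 (0 : Pic C K)
  rw [Pic.h0_zero, map_zero, zero_add] at h0
  have h1 := Pic.h0_sub_h1 c
  rw [h1, ← h0]
  push_cast
  ring

omit [IsAlgClosed K] in
theorem M4_cst_zero : CPt.cst C (X := 𝔸.toPtF) (0 : 𝔸.pt K) = 0 := by
  ext <;> simp [CPt.cst, 𝔸.map_zero]

variable (𝓜 : LBun 𝔸.toPtF) (h : CPt C 𝔸.toPtF K)

omit [IsAlgClosed K] in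
theorem M4_rigM_zero : rigM 𝓜 h 0 = (𝓜.pull h).cls := by
  rw [rigM, M4_cst_zero, add_zero]

theorem rigL_eq_zero (G : Geo 𝔸 g) (hP : HasProj 𝔸) (hTI : TIStatement 𝔸) (y z : 𝔸.pt K) :
    rigL 𝓜 h y z = 0 := by
  obtain ⟨cE, hdeg, hE1⟩ := C.exists_nonspecial
  have hE0 : cE.h0 = 1 := by
    have := M4_RR cE
    rw [hdeg, hE1] at this
    push_cast at this
    omega
  obtain ⟨q, hq⟩ := C.exists_pt01_drop cE (by omega)
  have hq0 : (cE - C.ptCls (C.pt01 q)).h0 = 0 := by omega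
  have hq1 : (cE - C.ptCls (C.pt01 q)).h1 = 0 := by
    have := M4_RR (cE - C.ptCls (C.pt01 q))
    rw [map_sub, hdeg, C.deg_ptCls, hq0] at this
    push_cast at this
    omega
  obtain ⟨s, hs, hopen⟩ := rig_open 𝓜 h G hP cE (cE - C.ptCls (C.pt01 q)) hE1 hq1
  have hs0 : s ≠ 0 := by
    rintro rfl
    exact hs (map_zero _)
  have hzero : ∀ w : G.R₀ →ₐ[K] K, w s ≠ 0 → ∀ y, rigL 𝓜 h y (𝔸.map w G.ι₀) = 0 :=
    fun w hw y => rig_const 𝓜 h G hP hTI _ cE hdeg q (fun y => (hopen w hw y).1)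
      (fun y => (hopen w hw y).2) y
  have hT : {z | (0 : Pic C K).h1 ≤ (rigL 𝓜 h y z).h1} = Set.univ :=
    G.eq_univ_of_dense (IsFam.closedA G (isFam_rigL_right 𝓜 h y) _) s hs0 (fun w hw => by
      show (0 : Pic C K).h1 ≤ (rigL 𝓜 h y (𝔸.map w G.ι₀)).h1
      rw [hzero w hw y])
  have hz : (0 : Pic C K).h1 ≤ (rigL 𝓜 h y z).h1 := by
    have : z ∈ {z | (0 : Pic C K).h1 ≤ (rigL 𝓜 h y z).h1} := hT ▸ Set.mem_univ z
    exact this
  apply Pic.eq_zero_of_deg_eq_zero _ (deg_rigL 𝓜 h hTI y z)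
  have := M4_RR (rigL 𝓜 h y z)
  rw [deg_rigL 𝓜 h hTI y z] at this
  omega

theorem square_of_TI (G : Geo 𝔸 g) (hP : HasProj 𝔸) (hTI : TIStatement 𝔸) (y z : 𝔸.pt K) :
    Nonempty (CMod.Iso ((𝓜.pull (h + CPt.cst C (y + z))).tensor (𝓜.pull h))
      ((𝓜.pull (h + CPt.cst C y)).tensor (𝓜.pull (h + CPt.cst C z)))) := by
  rw [← CMod.cls_eq_iff, Pic.cls_tensor, Pic.cls_tensor]
  have h0 := rigL_eq_zero 𝓜 h G hP hTI y z
  rw [rigL, sub_sub, sub_eq_zero, M4_rigM_zero] at h0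
  exact h0

end Fermat.Agent.S26
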