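/-
S26 / Rig / Main : the rigidity argument (block RIG-MAIN).  AGGREGATOR (INT-TOP, helper93):
definitions in `Rig/MainDefs.lean`; M0 : `Rig/M0.lean` (formal properties), M1 : `rig_open`,
M2 : `rig_support`, M3 : `rig_induction`, `rig_const`, M4 : `rigL_eq_zero`, `square_of_TI`.
-/
import Fermat.Agent.S26.Rig.M4
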