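/-
S26 / Rig / Fam6 (RIG-FAM-6) : a line bundle on `C × Spec R₁` is an algebraic family over `Spec R₁`.
-/
import Fermat.Agent.S26.Rig.Fam4

set_option autoImplicit false

open scoped TensorProduct

universe u

namespace Fermat.Agent.S26

variable {K : Type u} [Field K] {C : Curve K}

namespace CMod

variable {R₁ R R' : Type u} [CommRing R₁] [Algebra K R₁] [CommRing R] [Algebra K R]
  [CommRing R'] [Algebra K R']

/-- transitivity of the base change -/
theorem Fam6_iso_bc_bc (N : CMod C R₁) (τ : R₁ →ₐ[K] R) (φ : R →ₐ[K] R') {τ' : R₁ →ₐ[K] R'}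
    (h : φ.comp τ = τ') : Nonempty (Iso ((N.bc τ).bc φ) (N.bc τ')) :=
  Fam4_unique h ((bcHom_isPullback φ (N.bc τ)).comp (bcHom_isPullback τ N))
    (bcHom_isPullback τ' N)

/-- the family over `Spec R₁` defined by a line bundle on `C × Spec R₁` -/
noncomputable def Fam6_fam (N : CMod C R₁) : CFam C (PtF.ofAlg K R₁) where
  N := fun {_} _ _ τ => N.bc τ
  bc := fun {_ _} _ _ _ _ φ {τ _} h =>
    (bcHom φ (N.bc τ)).Fam4_isoComp (Classical.choice (Fam6_iso_bc_bc N τ φ h))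
  isPullback := fun {_ _} _ _ _ _ φ {τ _} _ =>
    (bcHom_isPullback φ (N.bc τ)).Fam4_isoComp _

end CMod

theorem IsFam.ofCMod {R₁ : Type u} [CommRing R₁] [Algebra K R₁] (N : CMod C R₁) :
    IsFam (PtF.ofAlg K R₁) (fun w : R₁ →ₐ[K] K => (N.bc w).cls) :=
  ⟨CMod.Fam6_fam N, fun _ => rfl⟩

end Fermat.Agent.S26
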